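import Fermat.Agent.S19.Defs

/-!
# S59 / MLT-DC-FLAT (helper779): closure interface for Hopf models

The flat deformation condition is a deformation condition as soon as the class of finite Galois
modules having a finite flat Hopf model over `ℤ_(p)` (frozen `Fermat.Agent.S19.HopfModel`) is
closed under equivariant subquotients and binary products ("Raynaud closure"; cell A3, WP-C).
Here: the two closure statements as `Prop`s (Spec pattern) and their formal consequences
(transport, subobjects, quotients, finite powers).
-/

set_option autoImplicit false

namespace Fermat.Agent.S59.H779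

open Fermat.Agent.S19

/-- **Closure under subquotients.**  If `M` has a Hopf model, `M' ↪ M` is an equivariant additive
embedding and `M' ↠ N` an equivariant additive surjection, then `N` has a Hopf model. -/
def HopfSubquotSpec (p : ℕ) : Prop :=
  ∀ (M M' N : Type) [AddCommGroup M] [AddCommGroup M'] [AddCommGroup N]
    (actM : GalQ → M → M) (actM' : GalQ → M' → M') (actN : GalQ → N → N)
    (i : M' →+ M) (q : M' →+ N), Function.Injective i → Function.Surjective q →
    (∀ σ x, i (actM' σ x) = actM σ (i x)) → (∀ σ x, q (actM' σ x) = actN σ (q x)) →
    HopfModel p M actM → HopfModel p N actN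

/-- **Closure under binary products.** -/
def HopfProdSpec (p : ℕ) : Prop :=
  ∀ (M M' : Type) [AddCommGroup M] [AddCommGroup M']
    (actM : GalQ → M → M) (actM' : GalQ → M' → M'),
    HopfModel p M actM → HopfModel p M' actM' →
    HopfModel p (M × M') (fun σ x => (actM σ x.1, actM' σ x.2))

section Consequences

variable {p : ℕ}

/-- Transport of a Hopf model along an equivariant additive bijection (no closure needed). -/
theorem HopfModel.transport {M N : Type} [AddCommGroup M] [AddCommGroup N]
    {actM : GalQ → M → M} {actN : GalQ → N → N} (e : M ≃+ N)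
    (he : ∀ σ x, e (actM σ x) = actN σ (e x)) (h : HopfModel p M actM) :
    HopfModel p N actN := by
  obtain ⟨H, i1, i2, hfin, hflat, hco, f, hadd, hgal⟩ := h
  refine ⟨H, i1, i2, hfin, hflat, hco, f.trans e.toEquiv, ?_, ?_⟩
  · intro a b
    change e (f (a * b)) = e (f a) + e (f b)
    rw [hadd, map_add]
  · intro σ a b hab
    change e (f b) = actN σ (e (f a))
    rw [hgal σ a b hab, he]

theorem HopfModel.quotient (hSub : HopfSubquotSpec p) {M N : Type} [AddCommGroup M]
    [AddCommGroup N] {actM : GalQ → M → M} {actN : GalQ → N → N} (q : M →+ N)
    (hq : Function.Surjective q) (he : ∀ σ x, q (actM σ x) = actN σ (q x))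
    (h : HopfModel p M actM) : HopfModel p N actN :=
  hSub M M N actM actM actN (AddMonoidHom.id M) q Function.injective_id hq (fun _ _ => rfl) he h

theorem HopfModel.sub (hSub : HopfSubquotSpec p) {M M' : Type} [AddCommGroup M]
    [AddCommGroup M'] {actM : GalQ → M → M} {actM' : GalQ → M' → M'} (i : M' →+ M)
    (hi : Function.Injective i) (he : ∀ σ x, i (actM' σ x) = actM σ (i x))
    (h : HopfModel p M actM) : HopfModel p M' actM' :=
  hSub M M' M' actM actM' actM' i (AddMonoidHom.id M') hi Function.surjective_id he
    (fun _ _ => rfl) h

/-- Finite powers of a module with a Hopf model have a Hopf model. -/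
theorem HopfModel.pi (hSub : HopfSubquotSpec p) (hProd : HopfProdSpec p) {M : Type}
    [AddCommGroup M] {act : GalQ → M → M} (h : HopfModel p M act) (ι : Type) [Finite ι] :
    HopfModel p (ι → M) (fun σ f i => act σ (f i)) := by
  induction ι using Finite.induction_empty_option with
  | of_equiv e ih =>
    rename_i α β
    refine HopfModel.transport (p := p) (actM := fun σ (f : α → M) i => act σ (f i))
      (AddEquiv.mk' (e.arrowCongr (Equiv.refl M)) (fun f g => rfl)) (fun σ x => rfl) ih
  | h_empty =>
    refine HopfModel.quotient hSub (0 : M →+ (PEmpty → M)) (fun f => ⟨0, ?_⟩) (fun σ x => ?_) h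
    · funext i; exact i.elim
    · funext i; exact i.elim
  | h_option ih =>
    rename_i α _
    have h2 := hProd M (α → M) act (fun σ f i => act σ (f i)) h ih
    refine HopfModel.transport (p := p)
      (actM := fun σ (x : M × (α → M)) => (act σ x.1, fun i => act σ (x.2 i)))
      (AddEquiv.mk' (Equiv.piOptionEquivProd (β := fun _ => M)).symm (fun f g => ?_))
      (fun σ x => ?_) h2
    · funext i; cases i <;> rfl
    · funext i; cases i <;> rfl

end Consequences

end Fermat.Agent.S59.H779
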