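import Fermat.Agent.S59.H779.FlatSpec
import Fermat.Agent.S56.H966.CondBC

/-!
# S59 / MLT-DC-FLAT (helper779): Hopf models of the levels `V ⧸ I V`

For `ρ : GaloisRepAdic A` and an ideal `I` of `A` we say that `ρ` is *flat at level `I`* if the
finite Galois module `ρ.V ⧸ I ρ.V` has a Hopf model.  We prove (assuming the closure of Hopf models
under subquotients and products):

* `FlatLevel.mono`: `I ≤ I'` ⇒ level `I` flat ⇒ level `I'` flat;
* `FlatLevel.comap`: descent along any local homomorphism `φ : A → B`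
  (level `J` of `ρ_B` ⇒ level `φ⁻¹ J` of `ρ`);
* `FlatLevel.baseChange`: ascent (level `φ⁻¹ J` of `ρ` ⇒ level `J` of `ρ_B`, `B ⧸ J` finite);
* `FlatLevel.of_jointly_injective`: level `⊥` of `ρ_A` and of `ρ_B` ⇒ level `⊥` of `ρ` for a
  jointly injective pair `P → A`, `P → B`.
-/

set_option autoImplicit false
set_option linter.style.haveILetI false
set_option linter.unusedSectionVars false

noncomputable section

namespace Fermat.Agent.S59.H779

open Fermat.Agent.S19 Fermat.Agent.S56.H966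
open scoped TensorProduct

variable {A : Type} [CommRing A] [IsLocalRing A] {B : Type} [CommRing B] [IsLocalRing B]

/-- The level module `V ⧸ I V`. -/
abbrev Lev (ρ : GaloisRepAdic A) (I : Ideal A) : Type :=
  ρ.V ⧸ (I • (⊤ : Submodule A ρ.V))

/-- `ρ` is flat at level `I`: the Galois module `V ⧸ I V` has a Hopf model over `ℤ_(p)`. -/
def FlatLevel (p : ℕ) (ρ : GaloisRepAdic A) (I : Ideal A) : Prop :=
  HopfModel p (Lev ρ I) (fun σ x => ρ.levelAction I σ x)

theorem isFlatAt_iff_flatLevel (p : ℕ) (ρ : GaloisRepAdic A) :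
    ρ.IsFlatAt p ↔ Finite (IsLocalRing.ResidueField A) ∧
      ∀ I : Ideal A, Finite (A ⧸ I) → FlatLevel p ρ I :=
  Iff.rfl

/-- The transition map `V ⧸ I V → V ⧸ I' V` for `I ≤ I'`. -/
def levelTrans (ρ : GaloisRepAdic A) {I I' : Ideal A} (h : I ≤ I') : Lev ρ I →ₗ[A] Lev ρ I' :=
  Submodule.mapQ _ _ LinearMap.id (by
    rw [Submodule.comap_id]
    exact Submodule.smul_mono_left h)

theorem levelTrans_mk (ρ : GaloisRepAdic A) {I I' : Ideal A} (h : I ≤ I') (v : ρ.V) :
    levelTrans ρ h (Submodule.Quotient.mk v) = Submodule.Quotient.mk v := rfl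

theorem levelTrans_surjective (ρ : GaloisRepAdic A) {I I' : Ideal A} (h : I ≤ I') :
    Function.Surjective (levelTrans ρ h) := by
  intro y
  obtain ⟨v, rfl⟩ := Submodule.Quotient.mk_surjective _ y
  exact ⟨Submodule.Quotient.mk v, rfl⟩

theorem levelTrans_levelAction (ρ : GaloisRepAdic A) {I I' : Ideal A} (h : I ≤ I') (σ : GalQ)
    (x : Lev ρ I) :
    levelTrans ρ h (ρ.levelAction I σ x) = ρ.levelAction I' σ (levelTrans ρ h x) := by
  obtain ⟨v, rfl⟩ := Submodule.Quotient.mk_surjective _ x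
  rfl

variable {p : ℕ}

theorem FlatLevel.mono (hSub : HopfSubquotSpec p) {ρ : GaloisRepAdic A} {I I' : Ideal A}
    (h : I ≤ I') (hI : FlatLevel p ρ I) : FlatLevel p ρ I' :=
  HopfModel.quotient hSub (levelTrans ρ h).toAddMonoidHom (levelTrans_surjective ρ h)
    (fun σ x => levelTrans_levelAction ρ h σ x) hI

section BaseChangeAPI

variable (φ : A →+* B) (hφ : IsLocalHom φ) (ρ : GaloisRepAdic A)

/-- The pure tensor `b ⊗ v` as an element of the base change of `ρ`. -/
def bcTmul (b : B) (v : ρ.V) : (ρ.baseChangeAlong φ hφ).V :=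
  letI : Algebra A B := φ.toAlgebra
  (b ⊗ₜ[A] v : B ⊗[A] ρ.V)

theorem smul_bcTmul (c b : B) (v : ρ.V) :
    c • bcTmul φ hφ ρ b v = bcTmul φ hφ ρ (c * b) v := by
  letI : Algebra A B := φ.toAlgebra
  exact TensorProduct.smul_tmul' c b v

theorem bcTmul_sub_left (b b' : B) (v : ρ.V) :
    bcTmul φ hφ ρ (b - b') v = bcTmul φ hφ ρ b v - bcTmul φ hφ ρ b' v := by
  letI : Algebra A B := φ.toAlgebra
  exact TensorProduct.sub_tmul b b' v

theorem bc_induction {P : (ρ.baseChangeAlong φ hφ).V → Prop} (h0 : P 0)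
    (h1 : ∀ b v, P (bcTmul φ hφ ρ b v)) (h2 : ∀ x y, P x → P y → P (x + y))
    (w : (ρ.baseChangeAlong φ hφ).V) : P w := by
  letI : Algebra A B := φ.toAlgebra
  exact TensorProduct.induction_on (motive := fun w : B ⊗[A] ρ.V => P w) w h0 h1 h2

/-- The comparison map `V ⧸ φ⁻¹(J) V → V_B ⧸ J V_B`, `[v] ↦ [1 ⊗ v]` (`levelMap` of H966 with
the codomain written as a level of the base change). -/
def levelMapBC (J : Ideal B) : Lev ρ (J.comap φ) →+ Lev (ρ.baseChangeAlong φ hφ) J :=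
  levelMap (V := ρ.V) φ J

theorem levelMapBC_mk (J : Ideal B) (v : ρ.V) :
    levelMapBC φ hφ ρ J (Submodule.Quotient.mk v) =
      Submodule.Quotient.mk (bcTmul φ hφ ρ 1 v) := rfl

theorem levelMapBC_injective (J : Ideal B) : Function.Injective (levelMapBC φ hφ ρ J) :=
  levelMap_injective φ J

theorem levelMapBC_levelAction (J : Ideal B) (σ : GalQ) (x : Lev ρ (J.comap φ)) :
    levelMapBC φ hφ ρ J (ρ.levelAction (J.comap φ) σ x) =
      (ρ.baseChangeAlong φ hφ).levelAction J σ (levelMapBC φ hφ ρ J x) :=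
  levelMap_levelAction φ hφ ρ J σ x

theorem mk_bcTmul_eq (J : Ideal B) (b : B) (v : ρ.V) :
    (Submodule.Quotient.mk (bcTmul φ hφ ρ b v) : Lev (ρ.baseChangeAlong φ hφ) J) =
      b • levelMapBC φ hφ ρ J (Submodule.Quotient.mk v) := by
  rw [levelMapBC_mk, ← Submodule.Quotient.mk_smul, smul_bcTmul, mul_one]

theorem mk_bcTmul_congr (J : Ideal B) {b b' : B} (h : b - b' ∈ J) (v : ρ.V) :
    (Submodule.Quotient.mk (bcTmul φ hφ ρ b v) : Lev (ρ.baseChangeAlong φ hφ) J) =
      Submodule.Quotient.mk (bcTmul φ hφ ρ b' v) := by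
  rw [Submodule.Quotient.eq, ← bcTmul_sub_left]
  have : bcTmul φ hφ ρ (b - b') v = (b - b') • bcTmul φ hφ ρ 1 v := by
    rw [smul_bcTmul, mul_one]
  rw [this]
  exact Submodule.smul_mem_smul h Submodule.mem_top

end BaseChangeAPI

/-- Descent of flatness of a level along a local homomorphism. -/
theorem FlatLevel.comap (hSub : HopfSubquotSpec p) (φ : A →+* B) (hφ : IsLocalHom φ)
    {ρ : GaloisRepAdic A} {J : Ideal B} (h : FlatLevel p (ρ.baseChangeAlong φ hφ) J) :
    FlatLevel p ρ (J.comap φ) :=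
  HopfModel.sub hSub (levelMapBC φ hφ ρ J) (levelMapBC_injective φ hφ ρ J)
    (fun σ x => levelMapBC_levelAction φ hφ ρ J σ x) h

section Ascent

variable (φ : A →+* B) (hφ : IsLocalHom φ) (ρ : GaloisRepAdic A) (J : Ideal B)

/-- The map `(V ⧸ φ⁻¹(J) V)^(B ⧸ J) → V_B ⧸ J V_B`, `(x_c) ↦ ∑_c b_c • [1 ⊗ x_c]`, where
`b_c ∈ B` is a representative of `c ∈ B ⧸ J`. -/
def sumMap [Fintype (B ⧸ J)] :
    ((B ⧸ J) → Lev ρ (J.comap φ)) →+ Lev (ρ.baseChangeAlong φ hφ) J :=
  ∑ c : B ⧸ J,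
    (DistribSMul.toAddMonoidHom (Lev (ρ.baseChangeAlong φ hφ) J) (Quotient.out c : B)).comp
      ((levelMapBC φ hφ ρ J).comp (Pi.evalAddMonoidHom (fun _ => Lev ρ (J.comap φ)) c))

theorem sumMap_apply [Fintype (B ⧸ J)] (x : (B ⧸ J) → Lev ρ (J.comap φ)) :
    sumMap φ hφ ρ J x = ∑ c : B ⧸ J, (Quotient.out c : B) • levelMapBC φ hφ ρ J (x c) := by
  rw [sumMap, AddMonoidHom.finsetSum_apply]
  rfl

theorem sumMap_levelAction [Fintype (B ⧸ J)] (σ : GalQ) (x : (B ⧸ J) → Lev ρ (J.comap φ)) :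
    sumMap φ hφ ρ J (fun c => ρ.levelAction (J.comap φ) σ (x c)) =
      (ρ.baseChangeAlong φ hφ).levelAction J σ (sumMap φ hφ ρ J x) := by
  rw [sumMap_apply, sumMap_apply, map_sum]
  refine Finset.sum_congr rfl fun c _ => ?_
  rw [map_smul, levelMapBC_levelAction φ hφ ρ J σ (x c)]

open scoped Classical in
theorem sumMap_surjective [Fintype (B ⧸ J)] : Function.Surjective (sumMap φ hφ ρ J) := by
  intro y
  obtain ⟨w, rfl⟩ := Submodule.Quotient.mk_surjective _ y
  induction w using bc_induction φ hφ ρ with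
  | h0 => exact ⟨0, map_zero _⟩
  | h1 b v =>
    refine ⟨Pi.single (Ideal.Quotient.mk J b) (Submodule.Quotient.mk v), ?_⟩
    rw [sumMap_apply, Finset.sum_eq_single (Ideal.Quotient.mk J b)]
    · rw [Pi.single_eq_same, ← mk_bcTmul_eq]
      refine mk_bcTmul_congr φ hφ ρ J ?_ v
      rw [← Ideal.Quotient.eq]
      exact Quotient.out_eq _
    · intro c _ hc
      rw [Pi.single_eq_of_ne hc, map_zero, smul_zero]
    · intro h
      exact absurd (Finset.mem_univ _) h
  | h2 x y hx hy =>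
    obtain ⟨x', hx'⟩ := hx
    obtain ⟨y', hy'⟩ := hy
    exact ⟨x' + y', by rw [map_add, hx', hy']; rfl⟩

end Ascent

/-- Ascent of flatness of a level along a local homomorphism. -/
theorem FlatLevel.baseChange (hSub : HopfSubquotSpec p) (hProd : HopfProdSpec p) (φ : A →+* B)
    (hφ : IsLocalHom φ) {ρ : GaloisRepAdic A} {J : Ideal B} [Finite (B ⧸ J)]
    (h : FlatLevel p ρ (J.comap φ)) : FlatLevel p (ρ.baseChangeAlong φ hφ) J := by
  letI : Fintype (B ⧸ J) := Fintype.ofFinite _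
  exact HopfModel.quotient hSub (sumMap φ hφ ρ J) (sumMap_surjective φ hφ ρ J)
    (fun σ x => sumMap_levelAction φ hφ ρ J σ x) (HopfModel.pi hSub hProd h (B ⧸ J))

section Fibre

variable {P : Type} [CommRing P] [IsLocalRing P]
  (pA : P →+* A) (hpA : IsLocalHom pA) (pB : P →+* B) (hpB : IsLocalHom pB)
  (ρ : GaloisRepAdic P)

/-- The map `V ⧸ 0 → (V_A ⧸ 0) × (V_B ⧸ 0)`. -/
def fibreMap : Lev ρ ⊥ →+ Lev (ρ.baseChangeAlong pA hpA) ⊥ × Lev (ρ.baseChangeAlong pB hpB) ⊥ :=
  AddMonoidHom.prod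
    ((levelMapBC pA hpA ρ ⊥).comp
      (levelTrans ρ (bot_le : (⊥ : Ideal P) ≤ (⊥ : Ideal A).comap pA)).toAddMonoidHom)
    ((levelMapBC pB hpB ρ ⊥).comp
      (levelTrans ρ (bot_le : (⊥ : Ideal P) ≤ (⊥ : Ideal B).comap pB)).toAddMonoidHom)

theorem fibreMap_levelAction (σ : GalQ) (x : Lev ρ ⊥) :
    fibreMap pA hpA pB hpB ρ (ρ.levelAction ⊥ σ x) =
      ((ρ.baseChangeAlong pA hpA).levelAction ⊥ σ (fibreMap pA hpA pB hpB ρ x).1,
        (ρ.baseChangeAlong pB hpB).levelAction ⊥ σ (fibreMap pA hpA pB hpB ρ x).2) := by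
  refine Prod.ext ?_ ?_
  · change levelMapBC pA hpA ρ ⊥ (levelTrans ρ
      (bot_le : (⊥ : Ideal P) ≤ (⊥ : Ideal A).comap pA) (ρ.levelAction ⊥ σ x)) = _
    rw [levelTrans_levelAction, levelMapBC_levelAction]
    rfl
  · change levelMapBC pB hpB ρ ⊥ (levelTrans ρ
      (bot_le : (⊥ : Ideal P) ≤ (⊥ : Ideal B).comap pB) (ρ.levelAction ⊥ σ x)) = _
    rw [levelTrans_levelAction, levelMapBC_levelAction]
    rfl

theorem fibreMap_injective (hinj : Function.Injective (fun x => (pA x, pB x))) :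
    Function.Injective (fibreMap pA hpA pB hpB ρ) := by
  rw [injective_iff_map_eq_zero]
  intro x hx
  obtain ⟨v, rfl⟩ := Submodule.Quotient.mk_surjective _ x
  have h1 : levelMapBC pA hpA ρ ⊥ (levelTrans ρ
      (bot_le : (⊥ : Ideal P) ≤ (⊥ : Ideal A).comap pA) (Submodule.Quotient.mk v)) = 0 :=
    congrArg Prod.fst hx
  have h2 : levelMapBC pB hpB ρ ⊥ (levelTrans ρ
      (bot_le : (⊥ : Ideal P) ≤ (⊥ : Ideal B).comap pB) (Submodule.Quotient.mk v)) = 0 :=
    congrArg Prod.snd hx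
  rw [← map_zero (levelMapBC pA hpA ρ ⊥)] at h1
  rw [← map_zero (levelMapBC pB hpB ρ ⊥)] at h2
  have h1' := levelMapBC_injective pA hpA ρ ⊥ h1
  have h2' := levelMapBC_injective pB hpB ρ ⊥ h2
  rw [levelTrans_mk, Submodule.Quotient.mk_eq_zero] at h1' h2'
  let b := Module.Free.chooseBasis P ρ.V
  have hv : v = 0 := by
    rw [← b.sum_repr v]
    refine Finset.sum_eq_zero fun i _ => ?_
    have hc : b.repr v i = 0 := by
      apply hinj
      have e1 : pA (b.repr v i) = 0 := by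
        have := repr_mem_of_mem_smul_top b _ h1' i
        simpa using this
      have e2 : pB (b.repr v i) = 0 := by
        have := repr_mem_of_mem_smul_top b _ h2' i
        simpa using this
      simp only [e1, e2, map_zero]
    rw [hc, zero_smul]
  rw [hv]
  rfl

end Fibre

/-- Flatness of the level `⊥` descends along a jointly injective pair. -/
theorem FlatLevel.of_jointly_injective (hSub : HopfSubquotSpec p) (hProd : HopfProdSpec p)
    {P : Type} [CommRing P] [IsLocalRing P] (pA : P →+* A) (hpA : IsLocalHom pA)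
    (pB : P →+* B) (hpB : IsLocalHom pB) (hinj : Function.Injective (fun x => (pA x, pB x)))
    {ρ : GaloisRepAdic P} (hA : FlatLevel p (ρ.baseChangeAlong pA hpA) ⊥)
    (hB : FlatLevel p (ρ.baseChangeAlong pB hpB) ⊥) : FlatLevel p ρ ⊥ :=
  HopfModel.sub hSub (fibreMap pA hpA pB hpB ρ) (fibreMap_injective pA hpA pB hpB ρ hinj)
    (fun σ x => fibreMap_levelAction pA hpA pB hpB ρ σ x) (hProd _ _ _ _ hA hB)

end Fermat.Agent.S59.H779
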