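import Fermat.Agent.S59.H779.FlatLevels
import Fermat.Agent.S53.CommAlgTest
import Fermat.Prelude.Def_GaloisRep_DeformationCondition

/-!
# S59 / MLT-DC-FLAT (helper779): flatness at `p` is a deformation condition

`isDeformationCondition_isFlatAt`: assuming that Hopf models are closed under subquotients and
binary products (`HopfSubquotSpec p`, `HopfProdSpec p`; cell A3, WP-C), the predicate
`ρ ↦ ρ.IsFlatAt p` satisfies the five axioms of `GaloisRep.IsDeformationCondition 𝒪`
(no hypothesis on `𝒪`).

Consequences: `isDeformationCondition_flatCondition_of`, `isDeformationCondition_minimalFlatCondition_of`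
(the determinant / unramified / unipotent parts enter as hypotheses; they are provided by
helper659's G3-core).
-/

set_option autoImplicit false
set_option linter.style.haveILetI false
set_option linter.unusedSectionVars false

namespace Fermat.Agent.S59.H779

open Fermat.Agent.S19 Fermat.Agent.S56.H966 Fermat.Agent.S53 IsLocalRing

section Helpers

variable {𝒪 : Type} [CommRing 𝒪] [IsLocalRing 𝒪]
variable {A : Type} [CommRing A] [IsLocalRing A] [Algebra 𝒪 A]

/-- The residue field of `𝒪` is finite if that of a local `𝒪`-algebra with the same residue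
field is. -/
theorem finite_residueField_base (hloc : IsLocalHom (algebraMap 𝒪 A))
    (hsurj : Function.Surjective (IsLocalRing.residue A ∘ algebraMap 𝒪 A))
    (h : Finite (ResidueField A)) : Finite (ResidueField 𝒪) :=
  haveI := hloc
  Finite.of_injective _ (residueField_map_bijective hloc hsurj).1

theorem finite_residueField_of_base (hloc : IsLocalHom (algebraMap 𝒪 A))
    (hsurj : Function.Surjective (IsLocalRing.residue A ∘ algebraMap 𝒪 A))
    (h : Finite (ResidueField 𝒪)) : Finite (ResidueField A) :=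
  haveI := hloc
  Finite.of_surjective _ (residueField_map_bijective hloc hsurj).2

theorem finite_quotient_bot (B : Type) [CommRing B] [Finite B] :
    Finite (B ⧸ (⊥ : Ideal B)) :=
  Finite.of_surjective (Ideal.Quotient.mk ⊥) Ideal.Quotient.mk_surjective

end Helpers

variable {p : ℕ} (𝒪 : Type) [CommRing 𝒪] [IsLocalRing 𝒪]

/-- **Flatness at `p` is a deformation condition** (given Raynaud closure of Hopf models). -/
theorem isDeformationCondition_isFlatAt (hSub : HopfSubquotSpec p) (hProd : HopfProdSpec p) :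
    GaloisRep.IsDeformationCondition 𝒪
      (fun ⦃A : Type⦄ [CommRing A] [IsLocalRing A] [Algebra 𝒪 A] (ρ : GaloisRepAdic A) =>
        ρ.IsFlatAt p) where
  of_isEquiv := by
    intro A _ _ _ _ ρ ρ' he h
    exact isFlatAt_of_isEquiv he h
  baseChangeAlong := by
    intro A B _ _ _ _ _ _ hA hB φ hφ ρ h
    haveI : Finite (ResidueField 𝒪) :=
      finite_residueField_base hA.isLocalHom hA.residue_surjective h.1
    refine ⟨finite_residueField_of_testAlgebra hB, fun J hJ => ?_⟩
    haveI := hJ
    have hJ' : Finite (A ⧸ J.comap (φ : A →+* B)) :=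
      Finite.of_injective _ (Ideal.quotientMap_injective (I := J) (f := (φ : A →+* B)))
    exact FlatLevel.baseChange hSub hProd (φ : A →+* B) hφ (h.2 _ hJ')
  of_baseChangeAlong_injective := by
    intro A B _ _ _ _ _ _ hA hB φ hφ hinj ρ h
    haveI : Finite (ResidueField 𝒪) :=
      finite_residueField_base hB.isLocalHom hB.residue_surjective h.1
    haveI : Finite B := finite_of_testAlgebra hB
    have h0 : FlatLevel p ρ ((⊥ : Ideal B).comap (φ : A →+* B)) :=
      FlatLevel.comap hSub (φ : A →+* B) hφ (h.2 ⊥ (finite_quotient_bot B))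
    refine ⟨finite_residueField_of_testAlgebra hA, fun I _ => FlatLevel.mono hSub ?_ h0⟩
    intro x hx
    rw [Ideal.mem_comap, Ideal.mem_bot] at hx
    have hx0 : x = 0 := hinj (hx.trans (map_zero φ).symm)
    rw [hx0]
    exact I.zero_mem
  of_fibreProduct := by
    intro A B C P _ _ _ _ _ _ _ _ _ _ _ _ hA hB _ hP f g pA pB hpA hpB _ hinj _ ρ h1 h2
    haveI : Finite (ResidueField 𝒪) :=
      finite_residueField_base hA.isLocalHom hA.residue_surjective h1.1
    haveI : Finite A := finite_of_testAlgebra hA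
    haveI : Finite B := finite_of_testAlgebra hB
    have h0 : FlatLevel p ρ ⊥ :=
      FlatLevel.of_jointly_injective hSub hProd (pA : P →+* A) hpA (pB : P →+* B) hpB hinj
        (h1.2 ⊥ (finite_quotient_bot A)) (h2.2 ⊥ (finite_quotient_bot B))
    exact ⟨finite_residueField_of_testAlgebra hP, fun I _ => FlatLevel.mono hSub bot_le h0⟩
  iff_forall_surjective := by
    intro A _ _ _ _ _ hloc hsurj ρ
    constructor
    · intro h B _ _ _ _ q hq hqs
      exact isFlatAt_baseChangeAlong_of_surjective (q : A →+* B) hq hqs h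
    · intro h
      -- the residue field of `A` is finite: look at the quotient `A ⧸ 𝔪`
      have hk : Finite (ResidueField A) := by
        have hm : maximalIdeal A ≠ ⊤ := (maximalIdeal.isMaximal A).ne_top
        letI : IsLocalRing (A ⧸ maximalIdeal A) := isLocalRing_quotient _ hm
        haveI : IsArtinianRing (A ⧸ maximalIdeal A) :=
          inferInstanceAs (IsArtinianRing (ResidueField A))
        have hT : GaloisRep.IsArtinianTestAlgebra 𝒪 (A ⧸ maximalIdeal A) :=
          ⟨isLocalHom_algebraMap_quotient hloc _, residue_surjective_quotient hsurj _,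
            inferInstance⟩
        have hq : IsLocalHom ((Ideal.Quotient.mkₐ 𝒪 (maximalIdeal A) :
            A →ₐ[𝒪] A ⧸ maximalIdeal A) : A →+* A ⧸ maximalIdeal A) :=
          isLocalHom_quotient_mk (maximalIdeal A)
        have h1 := h hT (Ideal.Quotient.mkₐ 𝒪 (maximalIdeal A)) hq
          (Ideal.Quotient.mkₐ_surjective 𝒪 _)
        haveI := h1.1
        haveI := isLocalHom_quotient_mk (maximalIdeal A)
        exact Finite.of_injective _
          (ResidueField.map (Ideal.Quotient.mk (maximalIdeal A))).injective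
      refine ⟨hk, fun I hI => ?_⟩
      by_cases hItop : I = ⊤
      · -- the zero module: a quotient of the level `𝔪`
        have hm : maximalIdeal A ≠ ⊤ := (maximalIdeal.isMaximal A).ne_top
        letI : IsLocalRing (A ⧸ maximalIdeal A) := isLocalRing_quotient _ hm
        haveI : IsArtinianRing (A ⧸ maximalIdeal A) :=
          inferInstanceAs (IsArtinianRing (ResidueField A))
        have hT : GaloisRep.IsArtinianTestAlgebra 𝒪 (A ⧸ maximalIdeal A) :=
          ⟨isLocalHom_algebraMap_quotient hloc _, residue_surjective_quotient hsurj _,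
            inferInstance⟩
        have hq : IsLocalHom ((Ideal.Quotient.mkₐ 𝒪 (maximalIdeal A) :
            A →ₐ[𝒪] A ⧸ maximalIdeal A) : A →+* A ⧸ maximalIdeal A) :=
          isLocalHom_quotient_mk (maximalIdeal A)
        have h1 := h hT (Ideal.Quotient.mkₐ 𝒪 (maximalIdeal A)) hq
          (Ideal.Quotient.mkₐ_surjective 𝒪 _)
        haveI : Finite (A ⧸ maximalIdeal A) := hk
        have h0 := FlatLevel.comap hSub _ hq (h1.2 ⊥ (finite_quotient_bot _))
        rw [hItop]
        exact FlatLevel.mono hSub le_top h0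
      · letI : IsLocalRing (A ⧸ I) := isLocalRing_quotient I hItop
        haveI := hI
        have hT : GaloisRep.IsArtinianTestAlgebra 𝒪 (A ⧸ I) :=
          ⟨isLocalHom_algebraMap_quotient hloc I, residue_surjective_quotient hsurj I,
            inferInstance⟩
        have hq : IsLocalHom ((Ideal.Quotient.mkₐ 𝒪 I : A →ₐ[𝒪] A ⧸ I) : A →+* A ⧸ I) :=
          isLocalHom_quotient_mk I
        have h2 := h hT (Ideal.Quotient.mkₐ 𝒪 I) hq (Ideal.Quotient.mkₐ_surjective 𝒪 I)
        have h0 := FlatLevel.comap hSub _ hq (h2.2 ⊥ (finite_quotient_bot _))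
        refine FlatLevel.mono hSub ?_ h0
        intro x hx
        rw [Ideal.mem_comap, Ideal.mem_bot] at hx
        exact Ideal.Quotient.eq_zero_iff_mem.mp hx

section Combine

/-- Deformation conditions are closed under conjunction. -/
theorem isDefCond_and
    {𝒟₁ 𝒟₂ : ∀ ⦃A : Type⦄ [CommRing A] [IsLocalRing A] [Algebra 𝒪 A], GaloisRepAdic A → Prop}
    (h₁ : GaloisRep.IsDeformationCondition 𝒪 𝒟₁) (h₂ : GaloisRep.IsDeformationCondition 𝒪 𝒟₂) :
    GaloisRep.IsDeformationCondition 𝒪 (fun _A _ _ _ ρ => 𝒟₁ ρ ∧ 𝒟₂ ρ) where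
  of_isEquiv := fun _ _ _ _ hA _ _ he h => ⟨h₁.of_isEquiv hA he h.1, h₂.of_isEquiv hA he h.2⟩
  baseChangeAlong := fun _ _ _ _ _ _ _ _ hA hB φ hφ _ h =>
    ⟨h₁.baseChangeAlong hA hB φ hφ h.1, h₂.baseChangeAlong hA hB φ hφ h.2⟩
  of_baseChangeAlong_injective := fun _ _ _ _ _ _ _ _ hA hB φ hφ hinj _ h =>
    ⟨h₁.of_baseChangeAlong_injective hA hB φ hφ hinj h.1,
      h₂.of_baseChangeAlong_injective hA hB φ hφ hinj h.2⟩
  of_fibreProduct := fun _ _ _ _ _ _ _ _ _ _ _ _ _ _ _ _ hA hB hC hP f g pA pB hpA hpB hfg hinj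
      hsurj _ hρA hρB =>
    ⟨h₁.of_fibreProduct hA hB hC hP f g pA pB hpA hpB hfg hinj hsurj hρA.1 hρB.1,
      h₂.of_fibreProduct hA hB hC hP f g pA pB hpA hpB hfg hinj hsurj hρA.2 hρB.2⟩
  iff_forall_surjective := by
    intro A _ _ _ _ _ hloc hsurj ρ
    constructor
    · intro h B _ _ _ hB q hq hqs
      exact ⟨(h₁.iff_forall_surjective hloc hsurj ρ).mp h.1 hB q hq hqs,
        (h₂.iff_forall_surjective hloc hsurj ρ).mp h.2 hB q hq hqs⟩
    · intro h
      exact ⟨(h₁.iff_forall_surjective hloc hsurj ρ).mpr fun B _ _ _ hB q hq hqs =>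
          (h hB q hq hqs).1,
        (h₂.iff_forall_surjective hloc hsurj ρ).mpr fun B _ _ _ hB q hq hqs =>
          (h hB q hq hqs).2⟩

/-- The flat condition of the Prelude is a deformation condition, given the determinant and
unramified parts (helper659, G3-core) and Raynaud closure of Hopf models. -/
theorem isDeformationCondition_flatCondition_of (S : Finset ℕ)
    (hdet : GaloisRep.IsDeformationCondition 𝒪
      (fun ⦃A : Type⦄ [CommRing A] [IsLocalRing A] [Algebra 𝒪 A] (ρ : GaloisRepAdic A) =>
        ρ.DetIsCyclotomic p))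
    (hunr : GaloisRep.IsDeformationCondition 𝒪
      (fun ⦃A : Type⦄ [CommRing A] [IsLocalRing A] [Algebra 𝒪 A] (ρ : GaloisRepAdic A) =>
        ∀ q : ℕ, q.Prime → q ∉ S → ρ.IsUnramifiedAt q))
    (hSub : HopfSubquotSpec p) (hProd : HopfProdSpec p) :
    GaloisRep.IsDeformationCondition 𝒪 (GaloisRep.flatCondition 𝒪 p S) :=
  isDefCond_and 𝒪 hdet (isDefCond_and 𝒪 (isDeformationCondition_isFlatAt 𝒪 hSub hProd) hunr)

/-- The minimal flat condition of the Prelude is a deformation condition, given the
determinant, unramified and unipotent parts (helper659, G3-core) and Raynaud closure. -/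
theorem isDeformationCondition_minimalFlatCondition_of (S : Finset ℕ)
    (hdet : GaloisRep.IsDeformationCondition 𝒪
      (fun ⦃A : Type⦄ [CommRing A] [IsLocalRing A] [Algebra 𝒪 A] (ρ : GaloisRepAdic A) =>
        ρ.DetIsCyclotomic p))
    (hunr : GaloisRep.IsDeformationCondition 𝒪
      (fun ⦃A : Type⦄ [CommRing A] [IsLocalRing A] [Algebra 𝒪 A] (ρ : GaloisRepAdic A) =>
        ∀ q : ℕ, q.Prime → q ∉ S → ρ.IsUnramifiedAt q))
    (hunip : GaloisRep.IsDeformationCondition 𝒪
      (fun ⦃A : Type⦄ [CommRing A] [IsLocalRing A] [Algebra 𝒪 A] (ρ : GaloisRepAdic A) =>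
        ∀ q ∈ S, q.Prime → q ≠ p → ρ.IsUnipotentOnInertiaAt q))
    (hSub : HopfSubquotSpec p) (hProd : HopfProdSpec p) :
    GaloisRep.IsDeformationCondition 𝒪 (GaloisRep.minimalFlatCondition 𝒪 p S) :=
  isDefCond_and 𝒪 (isDeformationCondition_flatCondition_of 𝒪 S hdet hunr hSub hProd) hunip

end Combine

end Fermat.Agent.S59.H779
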